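import Fermat.Agent.S48.M.Top

/-!
# S48 : INTERFACE with layer M (owner helper6) : the mod `ℓ` representation of a mod `ℓ` eigenform of weight two on `Γ₁(M)`
`g` a cusp form of weight `2` on `Γ₀(M)` with nebentypus `χ` (ANY function `χ : ℤ → ℂ` with `g ∣ γ = χ(d_γ) g`; values in `ℤ̄`), coefficients `c n ∈ ℤ̄`, `φ (c 1) ≠ 0`, and `g mod φ` is an eigenform of all `T_p`, `p ∤ M`,
with eigenvalues `b p ∈ k`.  Then there is `r : G_ℚ → GL₂(k)` of finite level, unramified outside `M ℓ`, with `tr r(Frob_p) = b p`, `det r(Frob_p) = φ(χ p) p`.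
(`r` need not be semisimple.)   PROVED in `M/Top.lean` = `abs_main` (M/Abs/GL2.lean) + `M/Wiring.lean` + `M/IfPer.lean`.
-/

set_option autoImplicit false

open UpperHalfPlane Fermat.Agent.S29 Matrix

namespace Fermat.Agent.S48

theorem exists_residual (M : ℕ) [NeZero M] (ℓ : ℕ) (hℓ : ℓ.Prime) {k : Type} [Field k] [IsAlgClosed k]
    [CharP k ℓ] (φ : Zbar →+* k) (χ : ℤ → ℂ) (g : ℍ → ℂ) (hg : IsNebC M 2 χ g)
    (c : ℕ → Zbar) (hc : ∀ n, (c n : ℂ) = coeffFun g n) (h1 : φ (c 1) ≠ 0)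
    (x : ℤ → Zbar) (hx : ∀ d, (x d : ℂ) = χ d) (b : ℕ → k)
    (hb : ∀ p : ℕ, p.Prime → ¬ p ∣ M → ∀ n : ℕ,
      φ (c (p * n)) + φ (x p) * (p : k) * (if p ∣ n then φ (c (n / p)) else 0) = b p * φ (c n)) :
    ∃ r : GQ →* GL (Fin 2) k, GaloisFactorsThroughFiniteLevel r ∧
      ∀ p : ℕ, p.Prime → ¬ p ∣ M * ℓ → ∀ A : ValuationSubring Qb, A.LiesOverPrime p →
        (∀ σ ∈ A.inertiaSubgroupIn ℚ, r σ = 1) ∧
        ∀ σ : GQ, A.IsFrobeniusAt σ p →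
          (r σ : Matrix (Fin 2) (Fin 2) k).trace = b p ∧
          (r σ : Matrix (Fin 2) (Fin 2) k).det = φ (x p) * (p : k) :=
  Fermat.Agent.S48.M.exists_residual_top M ℓ hℓ φ χ g hg c hc h1 x hx b hb

end Fermat.Agent.S48
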