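import Fermat.Agent.S48.A.Defs
import Fermat.Agent.S48.H.Neb
import Fermat.Agent.S48.K.I3
import Fermat.Agent.S48.K.Int
import Fermat.Agent.S48.W.Res

/-!
# S48 / interface : the five inputs (I1), (I2), (I3), (H), (R) of layer A, wired to the layers H, K, R, W (helper9)
-/

set_option autoImplicit false

namespace Fermat.Agent.S48

open CongruenceSubgroup Fermat.Agent.S29

variable {N : ℕ} [NeZero N] {ε : DirichletCharacter ℂ N} {f : CuspForm (Gamma1 N) 1}

theorem Hyp.isCF (_h : Hyp N ε f) : S20.IsCF (Gamma1 N) 1 f := S20.isCF_of_cuspForm f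

theorem Hyp.heckeRel (h : Hyp N ε f) : HeckeRel N (coeffFun f) (fun p => ε (p : ZMod N)) := h.hecke

theorem Hyp.coeff_one (h : Hyp N ε f) : coeffFun f 1 = 1 := h.one

theorem Hyp.isNebC (h : Hyp N ε f) : IsNebC N 1 (etaOf ε) f :=
  isNebC_of_heckeRel ε h.isCF h.heckeRel

theorem Hyp.ne_zero (h : Hyp N ε f) : (f : UpperHalfPlane → ℂ) ≠ 0 := by
  intro h0
  have h1 := h.coeff_one
  rw [h0, coeffFun_zero] at h1
  exact zero_ne_one h1

theorem Hyp.odd (h : Hyp N ε f) : ε (-1) = -1 := eps_neg_one ε h.isCF h.heckeRel h.ne_zero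

theorem Hyp.integral (h : Hyp N ε f) (p : ℕ) (hp : p.Prime) (hpN : ¬ p ∣ N) :
    IsIntegral ℤ (ModularFormClass.qCoeff f p) :=
  isIntegral_coeff ε h.odd h.isNebC h.coeff_one h.heckeRel p hp hpN

theorem Hyp.ub_sq (h : Hyp N ε f) :
    UB (fun p => if p ∣ N then 0 else ‖ModularFormClass.qCoeff f p‖ ^ 2) 1 :=
  ub_id ε h.isNebC h.coeff_one h.heckeRel

open Classical in
theorem Hyp.ub_finite (h : Hyp N ε f) (η : ℝ) (hη : 0 < η) :
    ∃ Y : Set ℂ, Y.Finite ∧
      UB (fun p => if p ∣ N ∨ ModularFormClass.qCoeff f p ∈ Y then 0 else 1) η := by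
  obtain ⟨Y, hY⟩ := exists_Y ε h.isNebC h.coeff_one h.heckeRel h.integral η hη
  refine ⟨Y, Y.finite_toSet, ?_⟩
  convert hY using 2 with p
  by_cases h1 : p ∣ N <;> by_cases h2 : coeffFun f p ∈ Y <;>
    simp [h1, h2, ModularFormClass.qCoeff, coeffFun] at * <;> simp_all

theorem Hyp.exists_res (h : Hyp N ε f) :
    ∃ ℓ₀ : ℕ, ∀ ℓ : ℕ, ℓ.Prime → ℓ₀ < ℓ → HasRes N ε (fun n => ModularFormClass.qCoeff f n) ℓ := by
  obtain ⟨f', hf', h1', hT', hp', halg⟩ := exists_algebraic_eigen ε h.isNebC h.coeff_one h.heckeRel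
  obtain ⟨D, hD, hDint⟩ := exists_den ε h.odd hf' halg
  refine exists_res_of ε hf' h1' hT' (fun p hp hpN => ?_) D hD hDint _ (fun p hp hpN => ?_)
  · rw [hp' p hp hpN]; exact h.integral p hp hpN
  · exact (hp' p hp hpN).symm

theorem Hyp.sys (h : Hyp N ε f) : Sys N ε (fun n => ModularFormClass.qCoeff f n) where
  integral := h.integral
  rankin := h.ub_sq
  finite := h.ub_finite
  odd := h.odd
  res := h.exists_res

end Fermat.Agent.S48
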