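import Fermat.Agent.S48.A.Defs
import Fermat.Agent.Cheb.Interface

/-!
# S48 / interface (C) : Chebotarev in the language of the prelude   [key S48/C-IF; owner of the input: helper7, `Fermat/Agent/Cheb/Main.lean`]

From `Cheb.chebotarev_lower (L) (C : Finset (L ≃ₐ[ℚ] L)) (X : Set (Pl ℚ)) (hX : ∀ σ ∈ C, frobSet ℚ σ ⊆ X) ε : ∀ᶠ s, (|C|/|G| - ε) Lam s ≤ DS X s`.
`L` = normal closure of a finite level of `r` (an `IntermediateField ℚ Qb`, Galois, number field); `r` factors as `r̄ : Gal(L/ℚ) → G`, onto;
`C = r̄⁻¹ B`, `|C|/|Gal| = |B|/|G|`.  `X = {v | P (the prime number below v)}`.  `frobSet ℚ σ ⊆ X`: a place `w` of `L` with Frobenius `σ` extends to a valuation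
subring `A` of `Qb` (`ES.FrobDensity.exists_valuationSubring_above`), a Frobenius lift at `A` (`Frob.exists_isFrobeniusAt`) restricts to `σ` (unramified: the Frobenius at `w` is unique):
this is the bridge already written in `ES/FrobDensity.lean` (`exists_frobenius_pow_of_isGalois`).  `DS X s = primeSum P s` (places of `ℚ` ↔ prime numbers).
(This file will import `Fermat.Agent.Cheb.Main`.)
-/

set_option autoImplicit false

namespace Fermat.Agent.S48

open Filter Topology

theorem chebotarev_if {G : Type} [Group G] [Finite G] (r : GQ →* G) (hsurj : Function.Surjective r)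
    (hfin : GaloisFactorsThroughFiniteLevel r) (B : Set G) (P : ℕ → Prop)
    (hP : ∀ (p : ℕ) (A : ValuationSubring Qb) (σ : GQ), p.Prime → A.LiesOverPrime p →
      A.IsFrobeniusAt σ p → r σ ∈ B → P p)
    (e : ℝ) (he : 0 < e) :
    ∀ᶠ s in 𝓝[>] (1 : ℝ), ((Nat.card B : ℝ) / Nat.card G - e) * Lam s ≤ primeSum P s := by
  classical
  have h := Cheb.chebotarev_GQ r hsurj hfin B P hP e he
  filter_upwards [h] with s hs
  have h1 : primeSum P s = Cheb.primeSum P s := by
    rw [Cheb.primeSum_eq]
    unfold primeSum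
    refine tsum_congr fun p => ?_
    congr
  rw [h1]
  exact hs

end Fermat.Agent.S48
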