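import Fermat.Agent.S48.Forms
import Fermat.Agent.S48.Z.Epsi

/-!
# S48 : INTERFACE with layer Z (weight one Eisenstein series; owner helper21)
`ψ` an odd Dirichlet character mod `N` (not necessarily primitive): `E_ψ = -(1/2N) ∑_{a<N} a ψ(a) + ∑_{n≥1} (∑_{d ∣ n} ψ d) q^n` is a modular form of weight one on `Γ₀(N)` with nebentypus `ψ`.
[= Z5 of the blueprint; to be proved by layer Z: `E_ψ = -(4π i N)⁻¹ ∑_{a mod N} ψ(a) Y_a`, `Y_a = ∑_{b mod N} Zf N (a,b)`; do NOT fill it here]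
Everything else that the layers K and W need from weight one Eisenstein series (`E* = q + …`, `A ≡ 1 mod ℓ`) is deduced from this statement in `S48/W/`.
-/

set_option autoImplicit false

open UpperHalfPlane Fermat.Agent.S29

namespace Fermat.Agent.S48

theorem exists_Epsi (N : ℕ) [NeZero N] (ψ : DirichletCharacter ℂ N) (hψ : ψ (-1) = -1) :
    ∃ E : ℍ → ℂ, IsNeb N 1 (etaOf ψ) E ∧
      (2 * N : ℂ) * coeffFun E 0 = - ∑ a ∈ Finset.range N, (a : ℂ) * ψ (a : ZMod N) ∧
      ∀ n : ℕ, 0 < n → coeffFun E n = ∑ d ∈ n.divisors, ψ (d : ZMod N) :=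
  Z.exists_Epsi' ψ hψ

end Fermat.Agent.S48
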